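import Fermat.Agent.FLAT.HO.BialgDefs

/-!
# FLAT / HO, leaf P2b : counit axioms
-/

set_option autoImplicit false

noncomputable section

namespace Fermat.Agent.FLAT.HO

open TensorProduct

variable {R Ω : Type*} [CommRing R] [Field Ω] [Algebra R Ω]
variable {G : Type*} [AddCommGroup G]

variable {H : Subalgebra R (G → Ω)}

/-- Proof: for `z : H ⊗ H`, `(lid (map (counitHom h) id z) : G → Ω) y = boxAlg H H z (0, y)`. -/
theorem comulHom_rTensor (h : IsModel H) :
    (Algebra.TensorProduct.map (counitHom h) (.id R ↥H)).comp (comulHom h)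
      = (Algebra.TensorProduct.lid R ↥H).symm := by
  sorry

theorem comulHom_lTensor (h : IsModel H) :
    (Algebra.TensorProduct.map (.id R ↥H) (counitHom h)).comp (comulHom h)
      = (Algebra.TensorProduct.rid R R ↥H).symm := by
  sorry

end Fermat.Agent.FLAT.HO
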