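import Fermat.Agent.FLAT.HO.Coassoc
import Fermat.Agent.FLAT.HO.Counit

/-!
# FLAT / HO, leaf P2c : the Hopf algebra structure on a model `H ≤ (G → Ω)`
-/

set_option autoImplicit false

noncomputable section

namespace Fermat.Agent.FLAT.HO

open TensorProduct

variable {R Ω : Type*} [CommRing R] [Field Ω] [Algebra R Ω]
variable {G : Type*} [AddCommGroup G]

variable {H : Subalgebra R (G → Ω)}

/-- The bialgebra structure. -/
abbrev bialgebra (h : IsModel H) : Bialgebra R ↥H :=
  Bialgebra.ofAlgHom (comulHom h) (counitHom h) (comulHom_coassoc h) (comulHom_rTensor h)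
    (comulHom_lTensor h)

/-- Proof: for `z : H ⊗ H`, `(lift (antipodeHom h) id z : G → Ω) y = boxAlg H H z (-y, y)`. -/
theorem antipodeHom_rTensor (h : IsModel H) :
    letI := bialgebra h
    ((Algebra.TensorProduct.lift (antipodeHom h) (.id R ↥H) fun _ ↦ Commute.all _).comp
        (Bialgebra.comulAlgHom R ↥H)) = (Algebra.ofId R ↥H).comp (Bialgebra.counitAlgHom R ↥H) := by
  sorry

theorem antipodeHom_lTensor (h : IsModel H) :
    letI := bialgebra h
    (Algebra.TensorProduct.lift (.id R ↥H) (antipodeHom h) fun _ _ ↦ Commute.all _ _).comp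
        (Bialgebra.comulAlgHom R ↥H) = (Algebra.ofId R ↥H).comp (Bialgebra.counitAlgHom R ↥H) := by
  sorry

/-- The Hopf algebra structure. -/
abbrev hopfAlgebra (h : IsModel H) : HopfAlgebra R ↥H :=
  letI := bialgebra h
  HopfAlgebra.ofAlgHom (antipodeHom h) (antipodeHom_rTensor h) (antipodeHom_lTensor h)

/-- Cocommutativity.  Proof: `boxAlg H H (comm z) (a, b) = boxAlg H H z (b, a)`, injectivity of
`boxAlg H H`, commutativity of `G`. -/
theorem isCocomm (h : IsModel H) :
    letI := hopfAlgebra h
    Coalgebra.IsCocomm R ↥H := by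
  sorry

end Fermat.Agent.FLAT.HO
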