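import Fermat.Agent.FLAT.HO.Box

/-!
# FLAT / HO, P2 : models `H ≤ (G → Ω)`; comultiplication, counit, antipode (definitions)
-/

set_option autoImplicit false

noncomputable section

namespace Fermat.Agent.FLAT.HO

open TensorProduct

variable {R Ω : Type*} [CommRing R] [Field Ω] [Algebra R Ω]
variable {G : Type*} [AddCommGroup G]

/-- `H` is an `R`-form of the Hopf algebra `Map(G, Ω)`. -/
structure IsModel (H : Subalgebra R (G → Ω)) : Prop where
  inj : Function.Injective (algebraMap R Ω)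
  basis : HasIndepBasis (Subalgebra.toSubmodule H)
  span : Submodule.span Ω (H : Set (G → Ω)) = ⊤
  comul : ∀ ψ ∈ H, coMul ψ ∈ boxSub H H
  counit : ∀ ψ ∈ H, ψ 0 ∈ (algebraMap R Ω).range
  antipode : ∀ ψ ∈ H, (fun y => ψ (-y)) ∈ H

/-- `ψ ↦ ψ ∘ φ` as an algebra homomorphism. -/
def compAlg (R Ω : Type*) [CommRing R] [Field Ω] [Algebra R Ω] {X Y : Type*} (φ : Y → X) :
    (X → Ω) →ₐ[R] (Y → Ω) where
  toFun ψ := fun y => ψ (φ y)
  map_one' := rfl
  map_mul' _ _ := rfl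
  map_zero' := rfl
  map_add' _ _ := rfl
  commutes' _ := rfl

@[simp] theorem compAlg_apply {X Y : Type*} (φ : Y → X) (ψ : X → Ω) (y : Y) :
    compAlg R Ω φ ψ y = ψ (φ y) := rfl

variable {H : Subalgebra R (G → Ω)}

/-- comultiplication -/
def comulHom (h : IsModel H) : ↥H →ₐ[R] (↥H ⊗[R] ↥H) :=
  ((AlgEquiv.ofInjective (boxAlg H H) (boxAlg_injective h.inj h.basis h.basis)).symm :
      ↥(boxAlg H H).range →ₐ[R] (↥H ⊗[R] ↥H)).comp
    (((compAlg R Ω (fun y : G × G => y.1 + y.2)).comp H.val).codRestrict (boxAlg H H).range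
      (fun ψ => h.comul ψ ψ.2))

theorem boxAlg_comulHom (h : IsModel H) (ψ : H) :
    boxAlg H H (comulHom h ψ) = coMul (ψ : G → Ω) := by
  have := (AlgEquiv.ofInjective (boxAlg H H)
    (boxAlg_injective h.inj h.basis h.basis)).apply_symm_apply
      ((((compAlg R Ω (fun y : G × G => y.1 + y.2)).comp H.val).codRestrict (boxAlg H H).range
      (fun ψ => h.comul ψ ψ.2)) ψ)
  exact congrArg Subtype.val this

/-- counit -/
def counitHom (h : IsModel H) : ↥H →ₐ[R] R :=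
  ((AlgEquiv.ofInjective (Algebra.ofId R Ω) h.inj).symm :
      ↥(Algebra.ofId R Ω).range →ₐ[R] R).comp
    (((Pi.evalAlgHom R (fun _ : G => Ω) 0).comp H.val).codRestrict (Algebra.ofId R Ω).range
      (fun ψ => h.counit ψ ψ.2))

theorem algebraMap_counitHom (h : IsModel H) (ψ : H) :
    algebraMap R Ω (counitHom h ψ) = (ψ : G → Ω) 0 := by
  have := (AlgEquiv.ofInjective (Algebra.ofId R Ω) h.inj).apply_symm_apply
      ((((Pi.evalAlgHom R (fun _ : G => Ω) 0).comp H.val).codRestrict (Algebra.ofId R Ω).range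
      (fun ψ => h.counit ψ ψ.2)) ψ)
  exact congrArg Subtype.val this

/-- antipode -/
def antipodeHom (h : IsModel H) : ↥H →ₐ[R] ↥H :=
  ((compAlg R Ω (fun y : G => -y)).comp H.val).codRestrict H (fun ψ => h.antipode ψ ψ.2)

theorem coe_antipodeHom (h : IsModel H) (ψ : H) (y : G) :
    (antipodeHom h ψ : G → Ω) y = (ψ : G → Ω) (-y) := rfl

/-- The injective map `H ⊗ (H ⊗ H) → (G × (G × G) → Ω)`. -/
def boxAlg₃ (H : Subalgebra R (G → Ω)) : (↥H ⊗[R] (↥H ⊗[R] ↥H)) →ₐ[R] (G × (G × G) → Ω) :=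
  Algebra.TensorProduct.lift ((pr₁ R Ω G (G × G)).comp H.val)
    ((pr₂ R Ω G (G × G)).comp (boxAlg H H)) (fun _ _ => Commute.all _ _)

end Fermat.Agent.FLAT.HO
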