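import Fermat.Agent.FLAT.HO.Defs

/-!
# FLAT / HO, leaf P1 : external products of function algebras

`R → Ω` a commutative ring mapping to a field.  For `R`-subalgebras `H₁ ≤ (X → Ω)`,
`H₂ ≤ (Y → Ω)` we define `boxAlg H₁ H₂ : H₁ ⊗[R] H₂ →ₐ[R] (X × Y → Ω)`, `a ⊗ b ↦ boxMul a b`,
and show that it is injective when `H₁, H₂` have `R`-bases which are `Ω`-linearly independent.
-/

set_option autoImplicit false

noncomputable section

namespace Fermat.Agent.FLAT.HO

open TensorProduct

variable {R Ω : Type*} [CommRing R] [Field Ω] [Algebra R Ω]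

/-- The `R`-submodule `M` of `X → Ω` is spanned over `R` by a finite `Ω`-linearly independent
family. -/
def HasIndepBasis {X : Type*} (M : Submodule R (X → Ω)) : Prop :=
  ∃ (n : ℕ) (b : Fin n → (X → Ω)), LinearIndependent Ω b ∧ M = Submodule.span R (Set.range b)

variable {X Y : Type*}

/-- pull back along the first projection -/
def pr₁ (R Ω X Y : Type*) [CommRing R] [Field Ω] [Algebra R Ω] :
    (X → Ω) →ₐ[R] (X × Y → Ω) where
  toFun ψ := fun y => ψ y.1
  map_one' := rfl
  map_mul' _ _ := rfl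
  map_zero' := rfl
  map_add' _ _ := rfl
  commutes' _ := rfl

/-- pull back along the second projection -/
def pr₂ (R Ω X Y : Type*) [CommRing R] [Field Ω] [Algebra R Ω] :
    (Y → Ω) →ₐ[R] (X × Y → Ω) where
  toFun ψ := fun y => ψ y.2
  map_one' := rfl
  map_mul' _ _ := rfl
  map_zero' := rfl
  map_add' _ _ := rfl
  commutes' _ := rfl

/-- `a ⊗ b ↦ ((x, y) ↦ a x * b y)`. -/
def boxAlg (H₁ : Subalgebra R (X → Ω)) (H₂ : Subalgebra R (Y → Ω)) :
    (↥H₁ ⊗[R] ↥H₂) →ₐ[R] (X × Y → Ω) :=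
  Algebra.TensorProduct.lift ((pr₁ R Ω X Y).comp H₁.val) ((pr₂ R Ω X Y).comp H₂.val)
    (fun _ _ => Commute.all _ _)

@[simp] theorem boxAlg_tmul (H₁ : Subalgebra R (X → Ω)) (H₂ : Subalgebra R (Y → Ω))
    (a : H₁) (b : H₂) : boxAlg H₁ H₂ (a ⊗ₜ b) = boxMul (a : X → Ω) (b : Y → Ω) := by
  simp [boxAlg, boxMul, pr₁, pr₂]
  rfl

/-- The image of `H₁ ⊗ H₂` in `X × Y → Ω`. -/
def boxSub (H₁ : Subalgebra R (X → Ω)) (H₂ : Subalgebra R (Y → Ω)) :
    Subalgebra R (X × Y → Ω) := (boxAlg H₁ H₂).range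

/-- `boxSub` is the `R`-span of the products. -/
theorem toSubmodule_boxSub (H₁ : Subalgebra R (X → Ω)) (H₂ : Subalgebra R (Y → Ω)) :
    Subalgebra.toSubmodule (boxSub H₁ H₂) = Submodule.span R
      {Ψ : X × Y → Ω | ∃ ψ₁ ∈ H₁, ∃ ψ₂ ∈ H₂, Ψ = boxMul ψ₁ ψ₂} := by
  sorry

/-- Products of two `Ω`-linearly independent families are `Ω`-linearly independent.
Proof: if `∑ c_ij a_i(x) b_j(y) = 0` for all `x, y`, fix `y`: independence of `a` gives
`∑_j c_ij b_j(y) = 0` for all `i, y`; independence of `b` gives `c_ij = 0`. -/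
theorem linearIndependent_boxMul {m n : ℕ} {a : Fin m → (X → Ω)} {b : Fin n → (Y → Ω)}
    (ha : LinearIndependent Ω a) (hb : LinearIndependent Ω b) :
    LinearIndependent Ω (fun ij : Fin m × Fin n => boxMul (a ij.1) (b ij.2)) := by
  sorry

/-- **P1.**  Proof: `a, b` are `R`-bases of `H₁, H₂` (they are `R`-independent because
`c • f = algebraMap c • f` and they are `Ω`-independent... NB if `algebraMap R Ω` is not injective
use `hinj`), so `a_i ⊗ b_j` is an `R`-basis of the tensor product (`Basis.tensorProduct`), mapped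
to the `Ω`-independent (hence `R`-independent) family `boxMul a_i b_j`. -/
theorem boxAlg_injective (hinj : Function.Injective (algebraMap R Ω))
    {H₁ : Subalgebra R (X → Ω)} {H₂ : Subalgebra R (Y → Ω)}
    (h₁ : HasIndepBasis (Subalgebra.toSubmodule H₁))
    (h₂ : HasIndepBasis (Subalgebra.toSubmodule H₂)) :
    Function.Injective (boxAlg H₁ H₂) := by
  sorry

theorem hasIndepBasis_boxSub
    {H₁ : Subalgebra R (X → Ω)} {H₂ : Subalgebra R (Y → Ω)}
    (h₁ : HasIndepBasis (Subalgebra.toSubmodule H₁))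
    (h₂ : HasIndepBasis (Subalgebra.toSubmodule H₂)) :
    HasIndepBasis (Subalgebra.toSubmodule (boxSub H₁ H₂)) := by
  sorry

/-- A module with an independent basis is finite and free. -/
theorem HasIndepBasis.finite_free (hinj : Function.Injective (algebraMap R Ω))
    {M : Submodule R (X → Ω)} (h : HasIndepBasis M) : Module.Finite R M ∧ Module.Free R M := by
  sorry

end Fermat.Agent.FLAT.HO
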