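import Fermat.Agent.FLAT.HO.BialgDefs

/-!
# FLAT / HO, leaf P2a : coassociativity
-/

set_option autoImplicit false

noncomputable section

namespace Fermat.Agent.FLAT.HO

open TensorProduct

variable {R Ω : Type*} [CommRing R] [Field Ω] [Algebra R Ω]
variable {G : Type*} [AddCommGroup G]

variable {H : Subalgebra R (G → Ω)}

/-- Proof: `boxAlg₃ H = (boxAlg H (boxSub H H)) ∘ (id ⊗ e)` with
`e : H ⊗ H ≃ boxSub H H = AlgEquiv.ofInjective (boxAlg H H)`; use `boxAlg_injective` twice and
`hasIndepBasis_boxSub`. -/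
theorem boxAlg₃_injective (h : IsModel H) : Function.Injective (boxAlg₃ H) := by
  sorry

/-- Coassociativity.  Proof: compose with the injective `boxAlg₃ H`; both sides send `ψ` to
`(a, (b, c)) ↦ ψ (a + b + c)`.  Useful general formulas (prove by `Algebra.TensorProduct.ext` /
`TensorProduct.induction_on`): for `z : H ⊗ H`,
`boxAlg₃ H (map id (comulHom h) z) (a, (b, c)) = boxAlg H H z (a, b + c)` and
`boxAlg₃ H (assoc (map (comulHom h) id z)) (a, (b, c)) = boxAlg H H z (a + b, c)`. -/
theorem comulHom_coassoc (h : IsModel H) :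
    (Algebra.TensorProduct.assoc R R R ↥H ↥H ↥H).toAlgHom.comp
      ((Algebra.TensorProduct.map (comulHom h) (.id R ↥H)).comp (comulHom h))
      = (Algebra.TensorProduct.map (.id R ↥H) (comulHom h)).comp (comulHom h) := by
  sorry

end Fermat.Agent.FLAT.HO
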