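import Mathlib
import Fermat.Prelude.Def_GaloisRep_Flat

/-!
# FLAT / HO : Hopf orders in `Map(G, ℚ̄)`.  Definitions.

`G` a finite abelian group with an action `act : G_ℚ → G → G`.

* `IsFiniteFlat ℓ G act` : the conclusion of S19 / of `GaloisRepAdic.IsFlatAt` for `(G, act)`.
* `IsGalModule act` : `act` is an action by group automorphisms, trivial on an open subgroup.
* `IsEquivariant act ψ` : `ψ (σ y) = σ (ψ y)`.
* `IsHopfOrder ℓ act H` : `H` is a `ℤ_(ℓ)`-subalgebra of `G → ℚ̄` made of equivariant functions,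
  finitely generated as a module, spanning the equivariant functions over `ℚ`, and stable under
  the comultiplication `ψ ↦ ((y, y') ↦ ψ (y + y'))`.
* `HasHopfOrder ℓ G act`.
-/

set_option autoImplicit false

noncomputable section

namespace Fermat.Agent.FLAT

/-- `ℚ̄`. -/
abbrev Qb : Type := AlgebraicClosure ℚ

/-- `G_ℚ`. -/
abbrev GQ : Type := Qb ≃ₐ[ℚ] Qb

/-- `ℤ_(ℓ)`. -/
abbrev Zl (ℓ : ℕ) : Subring ℚ := GaloisRep.ratLocalizedAt ℓ

/-- The conclusion of S19 / `IsFlatAt` for an abstract Galois module `(G, act)`. -/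
def IsFiniteFlat (ℓ : ℕ) (G : Type) [AddCommGroup G] (act : GQ → G → G) : Prop :=
  ∃ (H : Type) (_ : CommRing H) (_ : HopfAlgebra (GaloisRep.ratLocalizedAt ℓ) H),
    Module.Finite (GaloisRep.ratLocalizedAt ℓ) H ∧ Module.Flat (GaloisRep.ratLocalizedAt ℓ) H ∧
    Coalgebra.IsCocomm (GaloisRep.ratLocalizedAt ℓ) H ∧
    ∃ e : WithConv (H →ₐ[GaloisRep.ratLocalizedAt ℓ] AlgebraicClosure ℚ) ≃ G,
      (∀ f g : WithConv (H →ₐ[GaloisRep.ratLocalizedAt ℓ] AlgebraicClosure ℚ),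
        e (f * g) = e f + e g) ∧
      ∀ (σ : AlgebraicClosure ℚ ≃ₐ[ℚ] AlgebraicClosure ℚ)
        (f g : WithConv (H →ₐ[GaloisRep.ratLocalizedAt ℓ] AlgebraicClosure ℚ)),
        (∀ h : H, g h = σ (f h)) → e g = act σ (e f)

/-- `act` is an action of `G_ℚ` on the abelian group `G` by automorphisms, trivial on the open
subgroup `Gal(ℚ̄ / L)` for some number field `L`. -/
structure IsGalModule {G : Type*} [AddCommGroup G] (act : GQ → G → G) : Prop where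
  one : ∀ y, act 1 y = y
  mul : ∀ σ τ y, act (σ * τ) y = act σ (act τ y)
  add : ∀ σ y z, act σ (y + z) = act σ y + act σ z
  open_stab : ∃ L : IntermediateField ℚ Qb, FiniteDimensional ℚ L ∧
    ∀ σ : GQ, (∀ x ∈ L, σ x = x) → ∀ y, act σ y = y

/-- Galois equivariant functions `G → ℚ̄`. -/
def IsEquivariant {G : Type*} (act : GQ → G → G) (ψ : G → Qb) : Prop :=
  ∀ σ y, ψ (act σ y) = σ (ψ y)

/-- The function `(y, y') ↦ ψ₁ y * ψ₂ y'`. -/
def boxMul {X Y Ω : Type*} [Mul Ω] (ψ₁ : X → Ω) (ψ₂ : Y → Ω) : X × Y → Ω :=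
  fun y => ψ₁ y.1 * ψ₂ y.2

/-- The comultiplication `ψ ↦ ((y, y') ↦ ψ (y + y'))`. -/
def coMul {G Ω : Type*} [Add G] (ψ : G → Ω) : G × G → Ω := fun y => ψ (y.1 + y.2)

/-- Hopf orders. -/
structure IsHopfOrder (ℓ : ℕ) {G : Type*} [AddCommGroup G] (act : GQ → G → G)
    (H : Subalgebra (Zl ℓ) (G → Qb)) : Prop where
  equivariant : ∀ ψ ∈ H, IsEquivariant act ψ
  fg : (Subalgebra.toSubmodule H).FG
  spans : ∀ ψ : G → Qb, IsEquivariant act ψ → ∃ m : ℕ, ((ℓ : Qb) ^ m) • ψ ∈ H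
  comul : ∀ ψ ∈ H, coMul ψ ∈ Submodule.span (Zl ℓ)
    {Ψ : G × G → Qb | ∃ ψ₁ ∈ H, ∃ ψ₂ ∈ H, Ψ = boxMul ψ₁ ψ₂}

/-- `(G, act)` has a Hopf order over `ℤ_(ℓ)`. -/
def HasHopfOrder (ℓ : ℕ) (G : Type*) [AddCommGroup G] (act : GQ → G → G) : Prop :=
  ∃ H : Subalgebra (Zl ℓ) (G → Qb), IsHopfOrder ℓ act H

end Fermat.Agent.FLAT
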