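import Fermat.Agent.FLAT.HO.DescentDefs

/-!
# FLAT / HO, leaf A0c : Galois descent for `Map(X, ℚ̄)`, linear independence

`X` a finite set with an action of `G_ℚ` which is trivial on an open subgroup.
`G_ℚ` acts semilinearly on `X → ℚ̄` by `conjFun act σ ψ = σ ∘ ψ ∘ act σ⁻¹`; the invariants are the
equivariant functions.
-/

set_option autoImplicit false

noncomputable section

namespace Fermat.Agent.FLAT

variable {X : Type*} {act : GQ → X → X}

/-- **(Desc3)** if `b` is a `ℚ̄`-independent family of functions fixed by `σ` and `∑ c_i b_i` is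
fixed by `σ`, then the `c_i` are fixed by `σ`. -/
theorem coeff_fixed {ι : Type*} [Fintype ι] {b : ι → (X → Qb)} (hb : LinearIndependent Qb b)
    (σ : GQ) (hσ : ∀ i, conjFun act σ (b i) = b i) (c : ι → Qb)
    (hc : conjFun act σ (∑ i, c i • b i) = ∑ i, c i • b i) (i : ι) : σ (c i) = c i := by
  sorry

/-- an element of `ℚ̄` fixed by `G_ℚ` is rational -/
theorem mem_range_of_fixed {c : Qb} (h : ∀ σ : GQ, σ c = c) : c ∈ (algebraMap ℚ Qb).range := by
  sorry

/-- **(Desc2)** equivariant functions which are `ℚ`-linearly independent are `ℚ̄`-linearly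
independent.  Proof (Artin): take a nontrivial relation `∑ c_i b_i = 0` with support of minimal
cardinality, normalised by `c_{i₀} = 1`; applying `conjFun σ` and subtracting gives a shorter
relation, so `σ c_i = c_i` for all `σ`, so `c_i ∈ ℚ` (`mem_range_of_fixed`): contradiction. -/
theorem linearIndependent_of_equivariant (h : IsGalSet act) {ι : Type*} {b : ι → (X → Qb)}
    (hb : ∀ i, IsEquivariant act (b i)) (hind : LinearIndependent ℚ b) :
    LinearIndependent Qb b := by
  sorry

end Fermat.Agent.FLAT
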