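import Fermat.Agent.FLAT.HO.DescentSpan
import Fermat.Agent.FLAT.HO.DescentIndep

/-!
# FLAT / HO, leaf A0d : Galois descent for `Map(X, ℚ̄)`, rational bases

`X` a finite set with an action of `G_ℚ` which is trivial on an open subgroup.
`G_ℚ` acts semilinearly on `X → ℚ̄` by `conjFun act σ ψ = σ ∘ ψ ∘ act σ⁻¹`; the invariants are the
equivariant functions.
-/

set_option autoImplicit false

noncomputable section

namespace Fermat.Agent.FLAT

variable {X : Type*} {act : GQ → X → X}

/-- **(Desc4)** a rational basis. -/
theorem exists_equivariant_basis [Finite X] (h : IsGalSet act) :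
    ∃ (n : ℕ) (b : Fin n → (X → Qb)), (∀ i, IsEquivariant act (b i)) ∧
      LinearIndependent Qb b ∧ Submodule.span Qb (Set.range b) = ⊤ := by
  sorry

end Fermat.Agent.FLAT
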