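import Fermat.Agent.FLAT.HO.Defs

/-!
# FLAT / HO, leaf A0a : Galois descent for `Map(X, ℚ̄)`, definitions and easy lemmas

`X` a finite set with an action of `G_ℚ` which is trivial on an open subgroup.
`G_ℚ` acts semilinearly on `X → ℚ̄` by `conjFun act σ ψ = σ ∘ ψ ∘ act σ⁻¹`; the invariants are the
equivariant functions.
-/

set_option autoImplicit false

noncomputable section

namespace Fermat.Agent.FLAT

/-- an action of `G_ℚ` on a set, trivial on an open subgroup -/
structure IsGalSet {X : Type*} (act : GQ → X → X) : Prop where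
  one : ∀ y, act 1 y = y
  mul : ∀ σ τ y, act (σ * τ) y = act σ (act τ y)
  open_stab : ∃ L : IntermediateField ℚ Qb, FiniteDimensional ℚ L ∧
    ∀ σ : GQ, (∀ x ∈ L, σ x = x) → ∀ y, act σ y = y

theorem IsGalModule.isGalSet {G : Type*} [AddCommGroup G] {act : GQ → G → G}
    (h : IsGalModule act) : IsGalSet act := ⟨h.one, h.mul, h.open_stab⟩

/-- the diagonal action on a product -/
def actProd {X Y : Type*} (act : GQ → X → X) (act' : GQ → Y → Y) : GQ → X × Y → X × Y :=
  fun σ y => (act σ y.1, act' σ y.2)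

theorem IsGalSet.prod {X Y : Type*} {act : GQ → X → X} {act' : GQ → Y → Y}
    (h : IsGalSet act) (h' : IsGalSet act') : IsGalSet (actProd act act') := by
  sorry

/-- The semilinear action of `G_ℚ` on functions. -/
def conjFun {X : Type*} (act : GQ → X → X) (σ : GQ) (ψ : X → Qb) : X → Qb :=
  fun y => σ (ψ (act σ⁻¹ y))

variable {X : Type*} {act : GQ → X → X}

theorem conjFun_one (h : IsGalSet act) (ψ : X → Qb) : conjFun act 1 ψ = ψ := by
  funext y; simp [conjFun, h.one]

theorem conjFun_mul (h : IsGalSet act) (σ τ : GQ) (ψ : X → Qb) :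
    conjFun act (σ * τ) ψ = conjFun act σ (conjFun act τ ψ) := by
  funext y; simp [conjFun, h.mul]

theorem conjFun_add (σ : GQ) (ψ ψ' : X → Qb) :
    conjFun act σ (ψ + ψ') = conjFun act σ ψ + conjFun act σ ψ' := by
  funext y; simp [conjFun]

theorem conjFun_mul' (σ : GQ) (ψ ψ' : X → Qb) :
    conjFun act σ (ψ * ψ') = conjFun act σ ψ * conjFun act σ ψ' := by
  funext y; simp [conjFun]

theorem conjFun_smul (σ : GQ) (c : Qb) (ψ : X → Qb) :
    conjFun act σ (c • ψ) = σ c • conjFun act σ ψ := by
  funext y; simp [conjFun]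

theorem isEquivariant_iff (h : IsGalSet act) (ψ : X → Qb) :
    IsEquivariant act ψ ↔ ∀ σ, conjFun act σ ψ = ψ := by
  sorry

/-- every function is fixed by an open subgroup -/
theorem exists_open_fix [Finite X] (h : IsGalSet act) (ψ : X → Qb) :
    ∃ L : IntermediateField ℚ Qb, FiniteDimensional ℚ L ∧
      ∀ σ : GQ, (∀ x ∈ L, σ x = x) → conjFun act σ ψ = ψ := by
  sorry

end Fermat.Agent.FLAT
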