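import Fermat.Agent.FLAT.HO.DescentDefs

/-!
# FLAT / HO, leaf A0b : Galois descent for `Map(X, ℚ̄)`, the invariants span

`X` a finite set with an action of `G_ℚ` which is trivial on an open subgroup.
`G_ℚ` acts semilinearly on `X → ℚ̄` by `conjFun act σ ψ = σ ∘ ψ ∘ act σ⁻¹`; the invariants are the
equivariant functions.
-/

set_option autoImplicit false

noncomputable section

namespace Fermat.Agent.FLAT

variable {X : Type*} {act : GQ → X → X}

/-- **(Desc1)** the equivariant functions span `X → ℚ̄` over `ℚ̄`.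
Proof.  Let `ψ : X → ℚ̄`; let `L / ℚ` be finite Galois (normal closure) such that `Gal(ℚ̄/L)` fixes
`ψ` (`exists_open_fix`).  Let `σ_1 = 1, …, σ_d` be representatives of `G_ℚ / Gal(ℚ̄/L)`.  For
`θ ∈ L` put `T θ = ∑_j σ_j θ • conjFun σ_j ψ`; it is equivariant (left multiplication by `τ`
permutes the cosets, and `Gal(ℚ̄/L)`, which is normal, fixes `θ` and `ψ`).  The restrictions
`σ_j|_L : L → ℚ̄` are distinct ring homomorphisms, hence `ℚ̄`-linearly independent (Dedekind,
`linearIndependent_monoidHom`); so the vectors `(σ_j θ)_j`, `θ ∈ L`, span `ℚ̄^d`, in particular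
`e_1 = ∑_i c_i (σ_j θ_i)_j`, and `ψ = ∑_i c_i T θ_i`. -/
theorem span_equivariant [Finite X] (h : IsGalSet act) :
    Submodule.span Qb {ψ : X → Qb | IsEquivariant act ψ} = ⊤ := by
  sorry

end Fermat.Agent.FLAT
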