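import Fermat.Agent.FLAT.HO.Points
import Fermat.Agent.FLAT.HO.Descent
import Fermat.Agent.S28T.RingO

/-!
# FLAT / HO : a Hopf order gives a finite flat model (`IsHopfOrder ⟹ IsModel ⟹ IsFiniteFlat`)
-/

set_option autoImplicit false

noncomputable section

namespace Fermat.Agent.FLAT

open HO

variable {ℓ : ℕ} [Fact ℓ.Prime] {G : Type} [AddCommGroup G] {act : GQ → G → G}

theorem algebraMap_Zl_injective (ℓ : ℕ) : Function.Injective (algebraMap (Zl ℓ) Qb) :=
  (algebraMap ℚ Qb).injective.comp Subtype.val_injective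

/-- every rational number becomes `ℓ`-integral after multiplication by a power of `ℓ` -/
theorem exists_pow_mul_mem_Zl (ℓ : ℕ) [Fact ℓ.Prime] (q : ℚ) : ∃ m : ℕ, (ℓ : ℚ) ^ m * q ∈ Zl ℓ := by
  have hℓ : ℓ.Prime := Fact.out
  obtain ⟨m, d, hd, hden⟩ := Nat.exists_eq_pow_mul_and_not_dvd q.den_nz ℓ hℓ.ne_one
  refine ⟨m, ?_⟩
  have hd0 : (d : ℚ) ≠ 0 := by
    intro h
    apply hd
    have : d = 0 := by exact_mod_cast h
    rw [this]
    exact dvd_zero _
  have hℓ0 : (ℓ : ℚ) ≠ 0 := by exact_mod_cast hℓ.ne_zero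
  have e : (ℓ : ℚ) ^ m * q = (q.num : ℚ) * (((d : ℤ) : ℚ))⁻¹ := by
    conv_lhs => rw [← Rat.num_div_den q, hden]
    push_cast
    field_simp
  rw [e]
  refine (Zl ℓ).mul_mem (intCast_mem _ _) (S28T.RingO.inv_int_mem ℓ ?_)
  intro h
  exact hd (by exact_mod_cast h)

/-- a rational number which is integral over `ℤ_(ℓ)` lies in `ℤ_(ℓ)`
(`IsIntegrallyClosed` from `S28T.RingO.isDedekindDomain_ratLocalizedAt`,
`isFractionRing_ratLocalizedAt`). -/
theorem mem_Zl_of_isIntegral (ℓ : ℕ) [Fact ℓ.Prime] {q : ℚ} (h : IsIntegral (Zl ℓ) (q : Qb)) :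
    q ∈ Zl ℓ := by
  have h1 : IsIntegral (Zl ℓ) (algebraMap ℚ Qb q) := by
    rwa [eq_ratCast (algebraMap ℚ Qb) q]
  have h2 : IsIntegral (Zl ℓ) q :=
    (isIntegral_algebraMap_iff (algebraMap ℚ Qb).injective).mp h1
  obtain ⟨y, hy⟩ := IsIntegrallyClosed.isIntegral_iff.mp h2
  rw [← hy]
  exact y.2

variable {H : Subalgebra (Zl ℓ) (G → Qb)}

/-- (O1) `H` is finitely generated and torsion free over the PID `ℤ_(ℓ)`, hence free
(`Module.free_of_finite_type_torsion_free'`, `S28T.ratLocalizedAt_isPrincipalIdealRing`); a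
`ℤ_(ℓ)`-basis is `ℚ`-linearly independent (clear denominators, `exists_pow_mul_mem_Zl` or
`IsFractionRing`), hence `ℚ̄`-linearly independent (`linearIndependent_of_equivariant`). -/
theorem IsHopfOrder.hasIndepBasis (hact : IsGalModule act) (hH : IsHopfOrder ℓ act H) :
    HasIndepBasis (Subalgebra.toSubmodule H) := by
  have := S28T.ratLocalizedAt_isPrincipalIdealRing ℓ
  have : Module.Finite (Zl ℓ) ↥(Subalgebra.toSubmodule H) := Module.Finite.iff_fg.mpr hH.fg
  have hinj := algebraMap_Zl_injective ℓ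
  have : Module.IsTorsionFree (Zl ℓ) Qb := by
    have : FaithfulSMul (Zl ℓ) Qb := (faithfulSMul_iff_algebraMap_injective _ _).mpr hinj
    infer_instance
  obtain ⟨n, B⟩ := Module.basisOfFiniteTypeTorsionFree' (R := Zl ℓ)
    (M := ↥(Subalgebra.toSubmodule H))
  refine ⟨n, fun i => ((B i : ↥(Subalgebra.toSubmodule H)) : G → Qb), ?_, ?_⟩
  · apply linearIndependent_of_equivariant hact.isGalSet
      (fun i => hH.equivariant _ (B i).2)
    rw [← LinearIndependent.iff_fractionRing (Zl ℓ) ℚ]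
    exact B.linearIndependent.map' (Subalgebra.toSubmodule H).subtype
      (Submodule.ker_subtype _)
  · have h1 := B.span_eq
    have h2 := congrArg (Submodule.map (Subalgebra.toSubmodule H).subtype) h1
    rw [Submodule.map_span, Submodule.map_top, Submodule.range_subtype, ← Set.range_comp] at h2
    exact h2.symm

/-- (O2) from `hH.spans` and `span_equivariant`. -/
theorem IsHopfOrder.span_eq_top [Finite G] (hact : IsGalModule act) (hH : IsHopfOrder ℓ act H) :
    Submodule.span Qb (H : Set (G → Qb)) = ⊤ := by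
  rw [eq_top_iff, ← span_equivariant hact.isGalSet, Submodule.span_le]
  intro ψ hψ
  obtain ⟨m, hm⟩ := hH.spans ψ hψ
  have hℓ0 : ((ℓ : Qb) ^ m) ≠ 0 :=
    pow_ne_zero _ (by exact_mod_cast (Fact.out : ℓ.Prime).ne_zero)
  have e : ψ = ((ℓ : Qb) ^ m)⁻¹ • (((ℓ : Qb) ^ m) • ψ) := by
    rw [smul_smul, inv_mul_cancel₀ hℓ0, one_smul]
  rw [e]
  exact Submodule.smul_mem _ _ (Submodule.subset_span hm)

/-- (O3) `ψ 0` is fixed by `G_ℚ` (`act σ 0 = 0`), so rational; `ψ` is integral over `ℤ_(ℓ)` (`H` is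
a finite `ℤ_(ℓ)`-algebra), so is `ψ 0`; conclude by `mem_Zl_of_isIntegral`. -/
theorem IsHopfOrder.counit (hact : IsGalModule act) (hH : IsHopfOrder ℓ act H) :
    ∀ ψ ∈ H, ψ 0 ∈ (algebraMap (Zl ℓ) Qb).range := by
  intro ψ hψ
  have h0 : ∀ σ, act σ 0 = 0 := by
    intro σ
    have := hact.add σ 0 0
    rw [add_zero] at this
    exact left_eq_add.mp this
  have hfix : ∀ σ : GQ, σ (ψ 0) = ψ 0 := by
    intro σ
    rw [← hH.equivariant ψ hψ σ 0, h0]
  obtain ⟨r, hr⟩ := mem_range_of_fixed hfix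
  have hint : IsIntegral (Zl ℓ) ψ := IsIntegral.of_mem_of_fg H hH.fg ψ hψ
  have hint0 : IsIntegral (Zl ℓ) (ψ 0) :=
    hint.map (Pi.evalAlgHom (Zl ℓ) (fun _ : G => Qb) 0)
  rw [← hr, eq_ratCast (algebraMap ℚ Qb) r] at hint0
  exact ⟨⟨r, mem_Zl_of_isIntegral ℓ hint0⟩, hr⟩

/-- (O4) `y ↦ ψ (m • y)` lies in `H`: induction on `m` (`m = 0`: `IsHopfOrder.counit`; step:
`ψ ((m+1) • y) = coMul ψ (m • y, y)` and `coMul ψ` is a `ℤ_(ℓ)`-combination of `boxMul ψ₁ ψ₂`, use
`Submodule.span_induction`). -/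
theorem IsHopfOrder.nsmul_mem (hact : IsGalModule act) (hH : IsHopfOrder ℓ act H) (m : ℕ) :
    ∀ ψ ∈ H, (fun y => ψ (m • y)) ∈ H := by
  induction m with
  | zero =>
    intro ψ hψ
    obtain ⟨c, hc⟩ := hH.counit hact ψ hψ
    have e : (fun y : G => ψ (0 • y)) = algebraMap (Zl ℓ) (G → Qb) c := by
      funext y
      rw [zero_smul, ← hc]
      rfl
    rw [e]
    exact H.algebraMap_mem c
  | succ m ih =>
    intro ψ hψ
    let Φ : (G × G → Qb) →ₗ[Zl ℓ] (G → Qb) :=
      { toFun := fun Ψ y => Ψ (m • y, y)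
        map_add' := fun _ _ => rfl
        map_smul' := fun _ _ => rfl }
    have hle : Submodule.span (Zl ℓ)
        {Ψ : G × G → Qb | ∃ ψ₁ ∈ H, ∃ ψ₂ ∈ H, Ψ = boxMul ψ₁ ψ₂} ≤
        (Subalgebra.toSubmodule H).comap Φ := by
      rw [Submodule.span_le]
      rintro _ ⟨ψ₁, h₁, ψ₂, h₂, rfl⟩
      exact H.mul_mem (ih ψ₁ h₁) h₂
    have h1 := hle (hH.comul ψ hψ)
    have e : (fun y : G => ψ ((m + 1) • y)) = Φ (coMul ψ) := by
      funext y
      show ψ ((m + 1) • y) = ψ (m • y + y)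
      rw [succ_nsmul]
    rw [e]
    exact h1

/-- (O5) `-y = (card G - 1) • y`. -/
theorem IsHopfOrder.antipode [Finite G] (hact : IsGalModule act) (hH : IsHopfOrder ℓ act H) :
    ∀ ψ ∈ H, (fun y => ψ (-y)) ∈ H := by
  intro ψ hψ
  have hpos : 0 < Nat.card G := Nat.card_pos
  have e : (fun y : G => ψ (-y)) = fun y => ψ ((Nat.card G - 1) • y) := by
    funext y
    congr 1
    have h1 : (Nat.card G - 1) • y + y = 0 := by
      rw [← succ_nsmul, Nat.sub_add_cancel hpos, card_nsmul_eq_zero']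
    exact (eq_neg_of_add_eq_zero_left h1).symm
  rw [e]
  exact hH.nsmul_mem hact _ ψ hψ

theorem IsHopfOrder.isModel [Finite G] (hact : IsGalModule act) (hH : IsHopfOrder ℓ act H) :
    IsModel H where
  inj := algebraMap_Zl_injective ℓ
  basis := hH.hasIndepBasis hact
  span := hH.span_eq_top hact
  comul := fun ψ hψ => by
    have := hH.comul ψ hψ
    rw [← toSubmodule_boxSub] at this
    exact this
  counit := hH.counit hact
  antipode := hH.antipode hact

/-- **HO main theorem.** -/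
theorem isFiniteFlat_of_isHopfOrder [Finite G] (hact : IsGalModule act)
    (hH : IsHopfOrder ℓ act H) : IsFiniteFlat ℓ G act := by
  have hM := hH.isModel hact
  obtain ⟨H', i1, i2, h1, h2, h3, j, e, hj, hj', hmul, hev⟩ := exists_package hM
  refine ⟨H', i1, i2, h1, h2, h3, e, hmul, fun σ f g hfg => ?_⟩
  apply evalHom_injective hM
  apply AlgHom.ext
  intro ψ
  obtain ⟨x, hx⟩ := hj' ψ ψ.2
  rw [evalHom_apply, evalHom_apply, ← hx, ← hev g x, hfg x, hev f x]
  exact (hH.equivariant _ (hj x) σ (e f)).symm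

theorem isFiniteFlat_of_hasHopfOrder [Finite G] (hact : IsGalModule act)
    (h : HasHopfOrder ℓ G act) : IsFiniteFlat ℓ G act := by
  obtain ⟨H, hH⟩ := h
  exact isFiniteFlat_of_isHopfOrder hact hH

end Fermat.Agent.FLAT
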