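import Fermat.Agent.FLAT.HO.Bialg

/-!
# FLAT / HO, leaves P3, P4 : the points of a model, and the packaged statement
-/

set_option autoImplicit false

noncomputable section

namespace Fermat.Agent.FLAT.HO

open TensorProduct

variable {R Ω : Type} [CommRing R] [Field Ω] [Algebra R Ω]
variable {G : Type} [AddCommGroup G]
variable {H : Subalgebra R (G → Ω)}

/-- evaluation at `y` -/
def evalHom (H : Subalgebra R (G → Ω)) (y : G) : ↥H →ₐ[R] Ω :=
  (Pi.evalAlgHom R (fun _ : G => Ω) y).comp H.val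

@[simp] theorem evalHom_apply (y : G) (ψ : H) : evalHom H y ψ = (ψ : G → Ω) y := rfl

/-- **P3a.** `H` separates the points of `G` (because it spans `G → Ω` over `Ω`). -/
theorem evalHom_injective (h : IsModel H) : Function.Injective (evalHom H) := by
  sorry

/-- **P3b.** Every `R`-algebra homomorphism `H → Ω` is an evaluation.
Proof: let `b` be the `Ω`-independent `R`-basis of `H`; by `h.span` it is an `Ω`-basis of `G → Ω`.
Extend `f` to the `Ω`-linear map `F : (G → Ω) → Ω`, `F (b i) = f (b i)`.  `F` agrees with `f` on `H`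
(`R`-linearity), hence `F (ψ ψ') = F ψ F ψ'` for `ψ, ψ' ∈ H`, hence for all `ψ, ψ'` (bilinearity,
`h.span`), and `F 1 = 1`.  With `δ_y = Pi.single y 1`: `∑ F δ_y = 1`, `F δ_y F δ_y' = 0` for
`y ≠ y'`, `F δ_y ^ 2 = F δ_y`, so there is exactly one `y` with `F δ_y = 1`, the others being `0`,
and `F ψ = ∑ ψ y' F δ_y' = ψ y`. -/
theorem evalHom_surjective [Finite G] (h : IsModel H) : Function.Surjective (evalHom H) := by
  sorry

/-- For `z : H ⊗ H`: `lift ev_y ev_y' z = boxAlg H H z (y, y')`. -/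
theorem lift_evalHom (y y' : G) (z : ↥H ⊗[R] ↥H) :
    Algebra.TensorProduct.lift (evalHom H y) (evalHom H y') (fun _ _ => Commute.all _ _) z
      = boxAlg H H z (y, y') := by
  sorry

/-- **P4.** The packaged statement.
Proof: `H' = ↥H`, `hopfAlgebra h`, `HasIndepBasis.finite_free` (free ⟹ flat), `isCocomm h`,
`j = Subtype.val`, `e = (Equiv.ofBijective (evalHom H) _).symm` (composed with `WithConv.equiv`),
`AlgHom.convMul_apply`, `lift_evalHom`, `boxAlg_comulHom`. -/
theorem exists_package [Finite G] (h : IsModel H) :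
    ∃ (H' : Type) (_ : CommRing H') (_ : HopfAlgebra R H'),
      Module.Finite R H' ∧ Module.Flat R H' ∧ Coalgebra.IsCocomm R H' ∧
      ∃ (j : H' → (G → Ω)) (e : WithConv (H' →ₐ[R] Ω) ≃ G),
        (∀ x, j x ∈ H) ∧ (∀ ψ ∈ H, ∃ x, j x = ψ) ∧
        (∀ f g : WithConv (H' →ₐ[R] Ω), e (f * g) = e f + e g) ∧
        ∀ (f : WithConv (H' →ₐ[R] Ω)) (x : H'), f x = j x (e f) := by
  sorry

end Fermat.Agent.FLAT.HO
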